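/-
S56 / block EC-IND, wrapper : from a group `G` with a normal subgroup `U` of finite index to the
finite group `G ⧸ U`.  Definitions: the class `IsK U p`, the `G ⧸ U`-module `QMod U N h`.
-/
import Mathlib
import Fermat.Agent.S56.EC.Defs
import Fermat.Agent.S56.EC.Ind.Basic

set_option autoImplicit false

namespace Fermat.Agent.S56.EC.Ind

open Fermat.Agent.S55

variable {G : Type} [Group G]

/-- `N` is finite, killed by `p`, and `U` acts trivially. -/
structure IsK (U : Subgroup G) (p : ℕ) (N : Type) [AddCommGroup N] [DistribMulAction G N] :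
    Prop where
  finite : Finite N
  tors : ∀ x : N, p • x = 0
  triv : ∀ u ∈ U, ∀ x : N, u • x = x

theorem IsK.isCp {U : Subgroup G} {p : ℕ} {N : Type} [AddCommGroup N] [DistribMulAction G N]
    (h : IsK U p N) : IsCp p N := ⟨h.finite, h.tors⟩

/-- A `G`-module on which `U` acts trivially, as a `G ⧸ U`-module. -/
def QMod (U : Subgroup G) (N : Type) [AddCommGroup N] [DistribMulAction G N]
    (_h : ∀ u ∈ U, ∀ x : N, u • x = x) : Type := N

namespace QMod

variable (U : Subgroup G) {N : Type} [AddCommGroup N] [DistribMulAction G N]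
  (h : ∀ u ∈ U, ∀ x : N, u • x = x)

instance : AddCommGroup (QMod U N h) := inferInstanceAs (AddCommGroup N)

/-- The identity map `N ≃+ QMod U N h`. -/
def toQ : N ≃+ QMod U N h := AddEquiv.refl N

/-- The action of `G ⧸ U` on `N`. -/
def actHom [U.Normal] : G ⧸ U →* AddMonoid.End N :=
  QuotientGroup.lift U (DistribMulAction.toAddMonoidEnd G N) (by
    intro u hu
    ext x
    exact h u hu x)

instance [U.Normal] : DistribMulAction (G ⧸ U) (QMod U N h) :=
  DistribMulAction.compHom N (actHom U h)

theorem mk_smul [U.Normal] (g : G) (x : N) :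
    (g : G ⧸ U) • toQ U h x = toQ U h (g • x) := rfl

end QMod

end Fermat.Agent.S56.EC.Ind
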