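/-
S56 / block EC-IND, wrapper : multiplicative functions on the class `IsK U p` of `G`-modules and the
induced multiplicative function on `G ⧸ U`-modules.
-/
import Fermat.Agent.S56.EC.Ind.W.Defs

set_option autoImplicit false

namespace Fermat.Agent.S56.EC.Ind

open Fermat.Agent.S55

variable {G : Type} [Group G]

/-- A function on `G`-modules, positive and multiplicative on the class `IsK U p`. -/
structure KFun (G : Type) [Group G] (U : Subgroup G) (p : ℕ) where
  /-- the function -/
  e : ∀ (N : Type) [AddCommGroup N] [DistribMulAction G N], ℚ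
  pos : ∀ (N : Type) [AddCommGroup N] [DistribMulAction G N], IsK U p N → 0 < e N
  mul : ∀ (A B C : Type) [AddCommGroup A] [DistribMulAction G A] [AddCommGroup B]
    [DistribMulAction G B] [AddCommGroup C] [DistribMulAction G C] (φ : A →+[G] B)
    (ψ : B →+[G] C), IsK U p B → ShortExact φ ψ → e B = e A * e C

variable {U : Subgroup G} {p : ℕ}

/-- A zero module is in the class. -/
theorem Fun_isK_of_subsingleton (U : Subgroup G) (p : ℕ) (N : Type) [AddCommGroup N]
    [DistribMulAction G N] [Subsingleton N] : IsK U p N :=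
  ⟨inferInstance, fun _ => Subsingleton.elim _ _, fun _ _ _ => Subsingleton.elim _ _⟩

/-- The value on a zero module is `1`. -/
theorem Fun_e_subsingleton (F : KFun G U p) (N : Type) [AddCommGroup N] [DistribMulAction G N]
    [Subsingleton N] : F.e N = 1 := by
  have h : ShortExact (DistribMulActionHom.id G : N →+[G] N) (DistribMulActionHom.id G) :=
    ⟨fun _ _ h => h, fun b => ⟨fun _ => ⟨b, rfl⟩, fun _ => Subsingleton.elim _ _⟩,
      fun b => ⟨b, rfl⟩⟩
  have h1 := F.mul N N N _ _ (Fun_isK_of_subsingleton U p N) h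
  have h2 := F.pos N (Fun_isK_of_subsingleton U p N)
  have h3 : F.e N * (F.e N - 1) = 0 := by linear_combination -h1
  rcases mul_eq_zero.1 h3 with h4 | h4
  · exact absurd h4 h2.ne'
  · linarith

/-- Invariance under isomorphisms. -/
theorem KFun.e_congr (F : KFun G U p) {A B : Type} [AddCommGroup A] [DistribMulAction G A]
    [AddCommGroup B] [DistribMulAction G B] (φ : A →+[G] B) (hφ : Function.Bijective φ)
    (hB : IsK U p B) : F.e A = F.e B := by
  have h : ShortExact φ (0 : B →+[G] PUnit) :=
    ⟨hφ.1, fun b => ⟨fun _ => hφ.2 b, fun _ => rfl⟩, fun _ => ⟨0, rfl⟩⟩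
  rw [F.mul A B PUnit φ 0 hB h, Fun_e_subsingleton F PUnit, mul_one]

/-- The restriction to `G` of a `G ⧸ U`-module of the class `Cp` is in the class `IsK U p`. -/
theorem isK_resMod [U.Normal] {M : Type} [AddCommGroup M] [DistribMulAction (G ⧸ U) M]
    (hM : IsCp p M) : IsK U p (ResMod (QuotientGroup.mk' U) M) := by
  refine ⟨hM.finite, hM.tors, fun u hu x => ?_⟩
  rw [ResMod.smul_def']
  have h1 : QuotientGroup.mk' U u = 1 := (QuotientGroup.eq_one_iff u).2 hu
  rw [h1, one_smul, AddEquiv.apply_symm_apply]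

/-- The induced multiplicative function on `G ⧸ U`-modules. -/
def KFun.toMultFun [U.Normal] (F : KFun G U p) : MultFun (G ⧸ U) p where
  e M _ _ := F.e (ResMod (QuotientGroup.mk' U) M)
  pos _ _ _ hM := F.pos _ (isK_resMod hM)
  mul _ _ _ _ _ _ _ _ _ _ _ hB h :=
    F.mul _ _ _ _ _ (isK_resMod hB) (ResMod.shortExact_map (QuotientGroup.mk' U) h)

theorem KFun.toMultFun_e [U.Normal] (F : KFun G U p) (M : Type) [AddCommGroup M]
    [DistribMulAction (G ⧸ U) M] : F.toMultFun.e M = F.e (ResMod (QuotientGroup.mk' U) M) := rfl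

theorem isCp_qMod {N : Type} [AddCommGroup N] [DistribMulAction G N] (hN : IsK U p N) :
    IsCp p (QMod U N hN.triv) := ⟨hN.finite, hN.tors⟩

/-- A module of the class `IsK U p` comes from a `G ⧸ U`-module. -/
theorem KFun.e_eq_toMultFun [U.Normal] (F : KFun G U p) {N : Type} [AddCommGroup N]
    [DistribMulAction G N] (hN : IsK U p N) : F.e N = F.toMultFun.e (QMod U N hN.triv) := by
  rw [KFun.toMultFun_e]
  let φ : N →+[G] ResMod (QuotientGroup.mk' U) (QMod U N hN.triv) :=
    { toFun := fun x => ResMod.toRes (QuotientGroup.mk' U) (QMod.toQ U hN.triv x)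
      map_smul' := fun _ _ => rfl
      map_zero' := rfl
      map_add' := fun _ _ => rfl }
  exact F.e_congr φ ⟨fun _ _ h => h, fun y => ⟨y, rfl⟩⟩ (isK_resMod (isCp_qMod hN))

end Fermat.Agent.S56.EC.Ind
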