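/-
S56 / block EC-IND, wrapper : `Res (Map(G ⧸ U, A_D)) ≅ Map(G ⧸ U, A)`, compatibly with right
translations.
-/
import Fermat.Agent.S56.EC.Ind.W.Defs

set_option autoImplicit false

namespace Fermat.Agent.S56.EC.Ind

open Fermat.Agent.S55

variable {G : Type} [Group G] (U : Subgroup G) [U.Normal] {A : Type} [AddCommGroup A]
  [DistribMulAction G A] (h : ∀ u ∈ U, ∀ x : A, u • x = x)

private theorem Theta.inv_smul_eq (g : G) (x : G ⧸ U) : ((g : G ⧸ U))⁻¹ • x = g⁻¹ • x := by
  induction x using QuotientGroup.induction_on with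
  | H y => rfl

private theorem Theta.symm_smul (g : G) (z : QMod U A h) :
    (QMod.toQ U h).symm ((g : G ⧸ U) • z) = g • (QMod.toQ U h).symm z := by
  obtain ⟨z', rfl⟩ := (QMod.toQ U h).surjective z
  rw [QMod.mk_smul, AddEquiv.symm_apply_apply, AddEquiv.symm_apply_apply]

/-- the underlying function of `Θ`. -/
private def Theta.fn (F : ResMod (QuotientGroup.mk' U) (IndMod (G ⧸ U) (QMod U A h))) :
    IndMod (G ⧸ U) A :=
  IndMod.of fun x => (QMod.toQ U h).symm (((ResMod.toRes (QuotientGroup.mk' U)).symm F) x)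

private theorem Theta.fn_apply (F : ResMod (QuotientGroup.mk' U) (IndMod (G ⧸ U) (QMod U A h)))
    (x : G ⧸ U) : Theta.fn U h F x =
      (QMod.toQ U h).symm (((ResMod.toRes (QuotientGroup.mk' U)).symm F) x) := rfl

/-- `Res (Map(G ⧸ U, A_D)) → Map(G ⧸ U, A)` (the identity on functions). -/
theorem exists_theta :
    ∃ Θ : ResMod (QuotientGroup.mk' U) (IndMod (G ⧸ U) (QMod U A h)) →+[G] IndMod (G ⧸ U) A,
      Function.Bijective Θ ∧
      ∀ (F : IndMod (G ⧸ U) (QMod U A h)) (x : G ⧸ U),
        Θ (ResMod.toRes (QuotientGroup.mk' U) F) x = (QMod.toQ U h).symm (F x) := by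
  refine ⟨{ toFun := Theta.fn U h
            map_smul' := ?_
            map_zero' := ?_
            map_add' := ?_ }, ⟨?_, ?_⟩, fun F x => rfl⟩
  · intro g F
    obtain ⟨F', rfl⟩ := (ResMod.toRes (QuotientGroup.mk' U)).surjective F
    apply IndMod.ext
    intro x
    change Theta.fn U h (g • ResMod.toRes (QuotientGroup.mk' U) F') x =
      (g • Theta.fn U h (ResMod.toRes (QuotientGroup.mk' U) F')) x
    rw [ResMod.smul_def, IndMod.smul_apply, Theta.fn_apply, Theta.fn_apply,
      AddEquiv.symm_apply_apply, AddEquiv.symm_apply_apply, IndMod.smul_apply]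
    change (QMod.toQ U h).symm ((g : G ⧸ U) • F' ((g : G ⧸ U)⁻¹ • x)) = _
    rw [Theta.symm_smul, Theta.inv_smul_eq]
  · apply IndMod.ext
    intro x
    rw [Theta.fn_apply, map_zero, IndMod.zero_apply, IndMod.zero_apply, map_zero]
  · intro F F'
    apply IndMod.ext
    intro x
    rw [IndMod.add_apply, Theta.fn_apply, Theta.fn_apply, Theta.fn_apply, map_add,
      IndMod.add_apply, map_add]
  · intro F F' hFF
    apply (ResMod.toRes (QuotientGroup.mk' U)).symm.injective
    apply IndMod.ext
    intro x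
    exact (QMod.toQ U h).symm.injective (congrArg (fun f : IndMod (G ⧸ U) A => f x) hFF)
  · intro f
    refine ⟨ResMod.toRes (QuotientGroup.mk' U) (IndMod.of fun x => QMod.toQ U h (f x)), ?_⟩
    apply IndMod.ext
    intro x
    change Theta.fn U h
      (ResMod.toRes (QuotientGroup.mk' U) (IndMod.of fun x => QMod.toQ U h (f x))) x = f x
    rw [Theta.fn_apply, AddEquiv.symm_apply_apply, IndMod.of_apply, AddEquiv.symm_apply_apply]

end Fermat.Agent.S56.EC.Ind
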