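/-
S56 / block EC-IND, wrapper : transfer of `PolyRange` along `ResMod`.
-/
import Fermat.Agent.S56.EC.Ind.W.Defs

set_option autoImplicit false

namespace Fermat.Agent.S56.EC.Ind

open Fermat.Agent.S55 Polynomial

/-- If `Θ : Res_f M → M'` is an equivariant bijection intertwining `γ` and `γ'` then
`Res_f (P(γ) M) ≅ P(γ') M'`. -/
theorem exists_polyRange_transfer {G D : Type} [Group G] [Group D] (f : G →* D)
    {M M' : Type} [AddCommGroup M] [DistribMulAction D M] [AddCommGroup M'] [DistribMulAction G M']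
    (γ : M →+[D] M) (γ' : M' →+[G] M') (Θ : ResMod f M →+[G] M') (hΘ : Function.Bijective Θ)
    (h : ∀ m : M, Θ (ResMod.toRes f (γ m)) = γ' (Θ (ResMod.toRes f m))) (P : ℤ[X]) :
    ∃ Θ' : ResMod f (PolyRange γ P) →+[G] PolyRange γ' P, Function.Bijective Θ' := by
  -- naturality
  have hnat : ∀ m : M, Θ (ResMod.toRes f (polyMap γ P m)) = polyMap γ' P (Θ (ResMod.toRes f m)) :=
    fun m => polyAdd_natural
      ((Θ : ResMod f M →+ M').comp (ResMod.toRes f : M ≃+ ResMod f M).toAddMonoidHom)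
      (γ : M →+ M) (γ' : M' →+ M') h P m
  let Ψ : ResMod f (PolyRange γ P) →+[G] M' :=
    Θ.comp (ResMod.map f (GSub.range (polyMap γ P)).inclG)
  have hΨ : ∀ w : PolyRange γ P,
      Ψ (ResMod.toRes f w) = Θ (ResMod.toRes f ((GSub.range (polyMap γ P)).incl w)) := fun w => rfl
  have hmem : ∀ a, Ψ a ∈ (GSub.range (polyMap γ' P)).toAddSubgroup := by
    intro a
    obtain ⟨w, rfl⟩ := (ResMod.toRes f : PolyRange γ P ≃+ _).surjective a
    obtain ⟨m, hm⟩ := (GSub.range (polyMap γ P)).incl_mem w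
    have hm' : polyMap γ P m = (GSub.range (polyMap γ P)).incl w := hm
    rw [hΨ, ← hm', hnat]
    exact ⟨_, rfl⟩
  refine ⟨(GSub.range (polyMap γ' P)).codRestrict Ψ hmem, ?_, ?_⟩
  · intro a a' haa
    obtain ⟨w, rfl⟩ := (ResMod.toRes f : PolyRange γ P ≃+ _).surjective a
    obtain ⟨w', rfl⟩ := (ResMod.toRes f : PolyRange γ P ≃+ _).surjective a'
    have h1 := congrArg (GSub.range (polyMap γ' P)).incl haa
    rw [GSub.incl_codRestrict, GSub.incl_codRestrict, hΨ, hΨ] at h1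
    have h2 := (ResMod.toRes f : M ≃+ _).injective (hΘ.1 h1)
    rw [(GSub.range (polyMap γ P)).incl_injective h2]
  · intro y
    obtain ⟨m', hm'⟩ := (GSub.range (polyMap γ' P)).incl_mem y
    have hm'' : polyMap γ' P m' = (GSub.range (polyMap γ' P)).incl y := hm'
    obtain ⟨x, rfl⟩ := hΘ.2 m'
    obtain ⟨m, rfl⟩ := (ResMod.toRes f : M ≃+ _).surjective x
    refine ⟨ResMod.toRes f ((GSub.range (polyMap γ P)).mkMod (polyMap γ P m)
      ((GSub.mem_range _ _).2 ⟨m, rfl⟩)), ?_⟩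
    apply (GSub.range (polyMap γ' P)).incl_injective
    rw [GSub.incl_codRestrict, hΨ]
    show Θ (ResMod.toRes f (polyMap γ P m)) = _
    rw [hnat, hm'']

end Fermat.Agent.S56.EC.Ind
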