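/-
S56 / block EC-IND, wrapper : the base case over `G ⧸ U` from the base case over `G`.
-/
import Fermat.Agent.S56.EC.Ind.W.Fun
import Fermat.Agent.S56.EC.Ind.W.Transfer
import Fermat.Agent.S56.EC.Ind.W.Theta

set_option autoImplicit false

namespace Fermat.Agent.S56.EC.Ind

open Fermat.Agent.S55 Polynomial

variable {G : Type} [Group G] {U : Subgroup G} [U.Normal] {p : ℕ}

/-- A normal subgroup acts trivially on its coset space. -/
private theorem Base_smul_coset (u : G) (hu : u ∈ U) (x : G ⧸ U) : u • x = x := by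
  induction x using QuotientGroup.induction_on with
  | H g =>
    show ((u * g : G) : G ⧸ U) = (g : G ⧸ U)
    rw [QuotientGroup.eq]
    have h1 : g⁻¹ * u⁻¹ * g⁻¹⁻¹ ∈ U := Subgroup.Normal.conj_mem inferInstance _ (U.inv_mem hu) _
    have h2 : (u * g)⁻¹ * g = g⁻¹ * u⁻¹ * g⁻¹⁻¹ := by group
    rw [h2]
    exact h1

private theorem Base_isK_indMod [Finite (G ⧸ U)] {A : Type} [AddCommGroup A]
    [DistribMulAction G A] (hA : IsK U p A) : IsK U p (IndMod (G ⧸ U) A) where
  finite := (hA.isCp.indMod (G ⧸ U)).finite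
  tors := (hA.isCp.indMod (G ⧸ U)).tors
  triv u hu f := by
    ext x
    rw [IndMod.smul_apply, Base_smul_coset u⁻¹ (U.inv_mem hu) x, hA.triv u hu]

omit [U.Normal] in
private theorem Base_isK_gsubMod {M : Type} [AddCommGroup M] [DistribMulAction G M]
    (hM : IsK U p M) (B : GSub G M) : IsK U p B.Mod where
  finite := (hM.isCp.gsubMod B).finite
  tors := (hM.isCp.gsubMod B).tors
  triv u hu x := B.incl_injective (by rw [GSub.incl_smul, hM.triv u hu])

theorem KFun.toMultFun_e_polyRange [Finite (G ⧸ U)] (F : KFun G U p) {A : Type} [AddCommGroup A]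
    [DistribMulAction G A] (hA : IsK U p A) (s : G) (hs : ∀ u ∈ U, s⁻¹ * u * s ∈ U) (P : ℤ[X]) :
    F.toMultFun.e (PolyRange (IndMod.pull (QMod U A hA.triv) (rightMul (s : G ⧸ U))) P) =
      F.e (PolyRange (IndMod.pull A (cosetRight U s hs)) P) := by
  rw [KFun.toMultFun_e]
  obtain ⟨Θ, hΘ, hΘf⟩ := exists_theta U hA.triv
  have hcr : ∀ x : G ⧸ U, cosetRight U s hs x = x * (s : G ⧸ U) := by
    intro x
    induction x using QuotientGroup.induction_on with
    | H a => rfl
  obtain ⟨Θ', hΘ'⟩ := exists_polyRange_transfer (QuotientGroup.mk' U)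
    (IndMod.pull (QMod U A hA.triv) (rightMul (s : G ⧸ U)))
    (IndMod.pull A (cosetRight U s hs)) Θ hΘ (by
      intro m
      ext x
      rw [hΘf, IndMod.pull_apply, IndMod.pull_apply, hΘf, rightMul_apply, hcr]) P
  exact F.e_congr Θ' hΘ' (Base_isK_gsubMod (Base_isK_indMod hA) _)

end Fermat.Agent.S56.EC.Ind
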