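/-
S56 / block EC-IND, wrapper : the induction theorem for a group `G` and a normal subgroup `U` of
finite index, with the base case in the shape wanted by EC-BASE.  The reduction `Red.base_of_poly`
(block EC-RED) enters as the hypothesis `red`.
-/
import Fermat.Agent.S56.EC.Ind.Main
import Fermat.Agent.S56.EC.Ind.W.Base

set_option autoImplicit false

namespace Fermat.Agent.S56.EC.Ind

open Fermat.Agent.S55 Polynomial

/-- The statement of `Red.base_of_poly` for the finite group `D`. -/
def RedStatement (D : Type) [Group D] (p : ℕ) : Prop :=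
  ∀ (E : MultFun D p) (A : Type) [AddCommGroup A] [DistribMulAction D A], Nat.card A = p →
    (∀ (s : D) (m : ℕ), ¬ p ∣ m → s ^ m = 1 → ∀ P : ℤ[X], IsIdemPoly p m P →
      E.e (PolyRange (IndMod.pull A (rightMul s)) P) = 1) →
    ∀ C : Subgroup D, IsCyclic C → ¬ p ∣ Nat.card C →
      ∀ (N : Type) [AddCommGroup N] [DistribMulAction D N], IsCp p N →
        E.e (IndMod (D ⧸ C) N) = 1

variable {G : Type} [Group G] {U : Subgroup G} [U.Normal] {p : ℕ}

/-- **The induction theorem** (W'). -/
theorem KFun.eq_one [Finite (G ⧸ U)] [Fact p.Prime] (F : KFun G U p)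
    (red : RedStatement (G ⧸ U) p)
    (A₀ : Type) [AddCommGroup A₀] [DistribMulAction G A₀] (hA₀ : IsK U p A₀)
    (hcard : Nat.card A₀ = p)
    (hbase : ∀ (s : G) (hs : ∀ u ∈ U, s⁻¹ * u * s ∈ U) (m : ℕ), ¬ p ∣ m → s ^ m ∈ U →
      ∀ P : ℤ[X], IsIdemPoly p m P → F.e (PolyRange (IndMod.pull A₀ (cosetRight U s hs)) P) = 1)
    (N : Type) [AddCommGroup N] [DistribMulAction G N] (hN : IsK U p N) : F.e N = 1 := by
  rw [F.e_eq_toMultFun hN]
  refine F.toMultFun.eq_one (red F.toMultFun (QMod U A₀ hA₀.triv) hcard ?_) _ (isCp_qMod hN)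
  intro s m hm hsm P hP
  induction s using QuotientGroup.induction_on with
  | H s =>
    have hs : ∀ u ∈ U, s⁻¹ * u * s ∈ U := fun u hu => by
      have := Subgroup.Normal.conj_mem (inferInstance : U.Normal) u hu s⁻¹
      rwa [inv_inv] at this
    rw [F.toMultFun_e_polyRange hA₀ s hs P]
    refine hbase s hs m hm ?_ P hP
    rw [← QuotientGroup.eq_one_iff, QuotientGroup.mk_pow]
    exact hsm

end Fermat.Agent.S56.EC.Ind
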