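/-
S56 / block EC-IND : the final export (W'), with the reduction (B) plugged in.
-/
import Fermat.Agent.S56.EC.Ind.W.Main
import Fermat.Agent.S56.EC.Ind.B.Main

set_option autoImplicit false

namespace Fermat.Agent.S56.EC.Ind

open Fermat.Agent.S55 Polynomial

theorem redStatement (D : Type) [Group D] [Finite D] (p : ℕ) [Fact p.Prime] : RedStatement D p :=
  fun E A _ _ hA hb C hC hpC _ _ _ hN => B.e_indMod_quot_cyclic E A hA hb C hC hpC hN

variable {G : Type} [Group G] {U : Subgroup G} [U.Normal] {p : ℕ}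

/-- **The induction theorem** (W'), final form: a function on `G`-modules which is positive and
multiplicative on the class `IsK U p` and equals `1` on the modules `P(R_s) Map(G ⧸ U, A₀)`
(`s` of order prime to `p` modulo `U`, `P` idempotent modulo `(p, X^m - 1)`) equals `1` on the whole
class. -/
theorem KFun.eq_one_of_polyRange [Finite (G ⧸ U)] [Fact p.Prime] (F : KFun G U p)
    (A₀ : Type) [AddCommGroup A₀] [DistribMulAction G A₀] (hA₀ : IsK U p A₀)
    (hcard : Nat.card A₀ = p)
    (hbase : ∀ (s : G) (hs : ∀ u ∈ U, s⁻¹ * u * s ∈ U) (m : ℕ), ¬ p ∣ m → s ^ m ∈ U →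
      ∀ P : ℤ[X], IsIdemPoly p m P → F.e (PolyRange (IndMod.pull A₀ (cosetRight U s hs)) P) = 1)
    (N : Type) [AddCommGroup N] [DistribMulAction G N] (hN : IsK U p N) : F.e N = 1 :=
  F.eq_one (redStatement (G ⧸ U) p) A₀ hA₀ hcard hbase N hN

end Fermat.Agent.S56.EC.Ind
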